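/-
S05 support (kernel of reduction): purely algebraic identities.
* Vieta relations for the chord/tangent line of a Weierstrass curve (from Mathlib's
  `addPolynomial_slope`);
* the line lemma: sum of the `z = -x/y` coordinates of the three intersection points;
* the chord factorisation in `(z, w)`-coordinates.
All declarations live in `Fermat.Agent.S05lib`.
-/
import Mathlib

set_option autoImplicit false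

open Polynomial

namespace Fermat.Agent.S05lib

variable {K : Type*} [Field K] (W : WeierstrassCurve.Affine K)

section Vieta
variable [DecidableEq K]

/-- Vieta's relations for the line through two points of a Weierstrass curve
(chord or tangent), with `ℓ` the slope and `x₃` the third `x`-coordinate. -/
theorem vieta {x₁ x₂ y₁ y₂ : K} (h₁ : W.Equation x₁ y₁) (h₂ : W.Equation x₂ y₂)
    (hxy : ¬(x₁ = x₂ ∧ y₁ = W.negY x₂ y₂)) :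
    let ℓ := W.slope x₁ x₂ y₁ y₂
    let x₃ := W.addX x₁ x₂ ℓ
    x₁ * x₂ + x₁ * x₃ + x₂ * x₃ =
        2 * x₁ * ℓ ^ 2 + (W.a₁ * x₁ - 2 * y₁ - W.a₃) * ℓ + (-W.a₁ * y₁ + W.a₄) ∧
      x₁ * x₂ * x₃ =
        x₁ ^ 2 * ℓ ^ 2 - (2 * x₁ * y₁ + W.a₃ * x₁) * ℓ + (y₁ ^ 2 + W.a₃ * y₁ - W.a₆) := by
  intro ℓ x₃
  have h := WeierstrassCurve.Affine.addPolynomial_slope h₁ h₂ hxy
  rw [WeierstrassCurve.Affine.addPolynomial_eq, neg_inj, Cubic.prod_X_sub_C_eq,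
    Cubic.toPoly_injective] at h
  have hc := congrArg Cubic.c h
  have hd := congrArg Cubic.d h
  simp only at hc hd
  refine ⟨?_, ?_⟩
  · show x₁ * x₂ + x₁ * W.addX x₁ x₂ (W.slope x₁ x₂ y₁ y₂) + x₂ * W.addX x₁ x₂ (W.slope x₁ x₂ y₁ y₂)
      = _
    exact hc.symm
  · show x₁ * x₂ * W.addX x₁ x₂ (W.slope x₁ x₂ y₁ y₂) = _
    linear_combination hd

/-- Vieta's relations in terms of the intercept `μ = y₁ - ℓ x₁`. -/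
theorem vieta_mu {x₁ x₂ y₁ y₂ : K} (h₁ : W.Equation x₁ y₁) (h₂ : W.Equation x₂ y₂)
    (hxy : ¬(x₁ = x₂ ∧ y₁ = W.negY x₂ y₂)) (ℓ μ x₃ : K) (hℓ : ℓ = W.slope x₁ x₂ y₁ y₂)
    (hμ : μ = y₁ - ℓ * x₁) (hx₃ : x₃ = W.addX x₁ x₂ ℓ) :
    x₁ + x₂ + x₃ = ℓ ^ 2 + W.a₁ * ℓ - W.a₂ ∧
    x₁ * x₂ + x₁ * x₃ + x₂ * x₃ = W.a₄ - 2 * ℓ * μ - W.a₁ * μ - W.a₃ * ℓ ∧
      x₁ * x₂ * x₃ = μ ^ 2 + W.a₃ * μ - W.a₆ := by
  obtain ⟨h2, h3⟩ := vieta W h₁ h₂ hxy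
  rw [← hℓ, ← hx₃] at h2 h3
  refine ⟨?_, ?_, ?_⟩
  · rw [hx₃, WeierstrassCurve.Affine.addX]; ring
  · rw [h2, hμ]; ring
  · rw [h3, hμ]; ring

/-- The second point lies on the line `y = ℓ x + μ`. -/
theorem snd_on_line {x₁ x₂ y₁ y₂ : K} (h₁ : W.Equation x₁ y₁) (h₂ : W.Equation x₂ y₂)
    (hxy : ¬(x₁ = x₂ ∧ y₁ = W.negY x₂ y₂)) (ℓ μ : K) (hℓ : ℓ = W.slope x₁ x₂ y₁ y₂)
    (hμ : μ = y₁ - ℓ * x₁) : y₂ = ℓ * x₂ + μ := by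
  by_cases hx : x₁ = x₂
  · have hy : y₁ ≠ W.negY x₂ y₂ := fun h => hxy ⟨hx, h⟩
    have := WeierstrassCurve.Affine.Y_eq_of_Y_ne h₁ h₂ hx hy
    rw [hμ, ← hx, ← this]; ring
  · rw [hμ, hℓ, WeierstrassCurve.Affine.slope_of_X_ne hx]
    have : x₁ - x₂ ≠ 0 := sub_ne_zero.mpr hx
    field_simp
    ring

end Vieta

section Line

variable (a₁ a₂ a₃ a₄ a₆ : K)

/-- The line lemma (numerator): a symmetric-function identity. -/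
theorem line_num {ℓ μ x₁ x₂ x₃ : K}
    (V1 : x₁ + x₂ + x₃ = ℓ ^ 2 + a₁ * ℓ - a₂)
    (V2 : x₁ * x₂ + x₁ * x₃ + x₂ * x₃ = a₄ - 2 * ℓ * μ - a₁ * μ - a₃ * ℓ)
    (V3 : x₁ * x₂ * x₃ = μ ^ 2 + a₃ * μ - a₆) :
    x₁ * ((ℓ * x₂ + μ) * (ℓ * x₃ + μ)) + x₂ * ((ℓ * x₁ + μ) * (ℓ * x₃ + μ))
        + x₃ * ((ℓ * x₁ + μ) * (ℓ * x₂ + μ))
      = -a₁ * ℓ * μ ^ 2 - a₂ * μ ^ 2 + a₃ * ℓ ^ 2 * μ + 2 * a₄ * ℓ * μ - 3 * a₆ * ℓ ^ 2 := by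
  linear_combination μ ^ 2 * V1 + 2 * ℓ * μ * V2 + 3 * ℓ ^ 2 * V3

/-- The line lemma (denominator). -/
theorem line_den {ℓ μ x₁ x₂ x₃ : K}
    (V1 : x₁ + x₂ + x₃ = ℓ ^ 2 + a₁ * ℓ - a₂)
    (V2 : x₁ * x₂ + x₁ * x₃ + x₂ * x₃ = a₄ - 2 * ℓ * μ - a₁ * μ - a₃ * ℓ)
    (V3 : x₁ * x₂ * x₃ = μ ^ 2 + a₃ * μ - a₆) :
    (ℓ * x₁ + μ) * (ℓ * x₂ + μ) * (ℓ * x₃ + μ)
      = μ ^ 3 - a₂ * ℓ * μ ^ 2 + a₄ * ℓ ^ 2 * μ - a₆ * ℓ ^ 3 := by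
  linear_combination ℓ * μ ^ 2 * V1 + ℓ ^ 2 * μ * V2 + ℓ ^ 3 * V3

/-- The coefficient `c₂` of the `(z,w)`-cubic cut out by the line `w = λ z + ν`. -/
def cTwo (lam nu : K) : K :=
  a₁ * lam + a₂ * nu + a₃ * lam ^ 2 + 2 * a₄ * lam * nu + 3 * a₆ * lam ^ 2 * nu

/-- The leading coefficient `c₃` of the `(z,w)`-cubic cut out by the line `w = λ z + ν`. -/
def cThree (lam : K) : K :=
  1 + a₂ * lam + a₄ * lam ^ 2 + a₆ * lam ^ 3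

/-- The line lemma: the sum of the `x/y` over the three intersection points of the line
`y = ℓ x + μ` with the curve, in terms of `λ = -ℓ/μ`, `ν = -1/μ`. -/
theorem line_sum {ℓ μ x₁ x₂ x₃ : K}
    (V1 : x₁ + x₂ + x₃ = ℓ ^ 2 + a₁ * ℓ - a₂)
    (V2 : x₁ * x₂ + x₁ * x₃ + x₂ * x₃ = a₄ - 2 * ℓ * μ - a₁ * μ - a₃ * ℓ)
    (V3 : x₁ * x₂ * x₃ = μ ^ 2 + a₃ * μ - a₆)
    (hμ : μ ≠ 0) (h₁ : ℓ * x₁ + μ ≠ 0) (h₂ : ℓ * x₂ + μ ≠ 0) (h₃ : ℓ * x₃ + μ ≠ 0) :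
    x₁ / (ℓ * x₁ + μ) + x₂ / (ℓ * x₂ + μ) + x₃ / (ℓ * x₃ + μ)
      = cTwo a₁ a₂ a₃ a₄ a₆ (-ℓ / μ) (-1 / μ) / cThree a₂ a₄ a₆ (-ℓ / μ) := by
  have hnum := line_num a₁ a₂ a₃ a₄ a₆ V1 V2 V3
  have hden := line_den a₁ a₂ a₃ a₄ a₆ V1 V2 V3
  have e2 : cTwo a₁ a₂ a₃ a₄ a₆ (-ℓ / μ) (-1 / μ)
      = (-a₁ * ℓ * μ ^ 2 - a₂ * μ ^ 2 + a₃ * ℓ ^ 2 * μ + 2 * a₄ * ℓ * μ - 3 * a₆ * ℓ ^ 2) / μ ^ 3 := by
    unfold cTwo; field_simp; ring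
  have e3 : cThree a₂ a₄ a₆ (-ℓ / μ)
      = (μ ^ 3 - a₂ * ℓ * μ ^ 2 + a₄ * ℓ ^ 2 * μ - a₆ * ℓ ^ 3) / μ ^ 3 := by
    unfold cThree; field_simp; ring
  have hprod : (ℓ * x₁ + μ) * (ℓ * x₂ + μ) * (ℓ * x₃ + μ) ≠ 0 :=
    mul_ne_zero (mul_ne_zero h₁ h₂) h₃
  have hμ3 : μ ^ 3 ≠ 0 := pow_ne_zero 3 hμ
  rw [e2, e3, ← hnum, ← hden, div_div_div_cancel_right₀ hμ3]
  generalize ℓ * x₁ + μ = Y1 at *
  generalize ℓ * x₂ + μ = Y2 at *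
  generalize ℓ * x₃ + μ = Y3 at *
  field_simp

end Line

section ZW

/-- The Weierstrass equation in the coordinates `z = -x/y`, `w = -1/y`. -/
theorem zw_equation {x y : K} (h : W.Equation x y) (hy : y ≠ 0) :
    -1 / y = (-x / y) ^ 3 + W.a₁ * (-x / y) * (-1 / y) + W.a₂ * (-x / y) ^ 2 * (-1 / y)
      + W.a₃ * (-1 / y) ^ 2 + W.a₄ * (-x / y) * (-1 / y) ^ 2 + W.a₆ * (-1 / y) ^ 3 := by
  rw [WeierstrassCurve.Affine.equation_iff] at h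
  field_simp
  linear_combination -h

variable (a₁ a₂ a₃ a₄ a₆ : K)

/-- The `(z,w)`-form of the Weierstrass equation. -/
def ZWEq (z w : K) : Prop :=
  w = z ^ 3 + a₁ * z * w + a₂ * z ^ 2 * w + a₃ * w ^ 2 + a₄ * z * w ^ 2 + a₆ * w ^ 3

/-- The "unit" factor of the chord factorisation. -/
def chordU (z₁ w₁ w₂ : K) : K :=
  1 - a₁ * z₁ - a₂ * z₁ ^ 2 - a₃ * (w₁ + w₂) - a₄ * z₁ * (w₁ + w₂)
    - a₆ * (w₁ ^ 2 + w₁ * w₂ + w₂ ^ 2)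

/-- The "small" factor of the chord factorisation. -/
def chordN (z₁ z₂ w₂ : K) : K :=
  z₁ ^ 2 + z₁ * z₂ + z₂ ^ 2 + a₁ * w₂ + a₂ * (z₁ + z₂) * w₂ + a₄ * w₂ ^ 2

/-- The chord factorisation: `(w₂ - w₁) U = (z₂ - z₁) N`. -/
theorem chord_factor {z₁ w₁ z₂ w₂ : K} (e₁ : ZWEq a₁ a₂ a₃ a₄ a₆ z₁ w₁)
    (e₂ : ZWEq a₁ a₂ a₃ a₄ a₆ z₂ w₂) :
    (w₂ - w₁) * chordU a₁ a₂ a₃ a₄ a₆ z₁ w₁ w₂ = (z₂ - z₁) * chordN a₁ a₂ a₄ z₁ z₂ w₂ := by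
  unfold ZWEq at e₁ e₂
  unfold chordU chordN
  linear_combination e₂ - e₁

/-- The unit factor of a single point: `w * U = z ^ 3`. -/
theorem zw_unit_factor {z w : K} (e : ZWEq a₁ a₂ a₃ a₄ a₆ z w) :
    w * (1 - a₁ * z - a₂ * z ^ 2 - a₃ * w - a₄ * z * w - a₆ * w ^ 2) = z ^ 3 := by
  unfold ZWEq at e
  linear_combination e

end ZW

end Fermat.Agent.S05lib
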