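/-
S05 support (kernel of reduction): a small calculus of "elements of valuation at most `t ^ k`".
All declarations live in `Fermat.Agent.S05lib`.
-/
import Mathlib

set_option autoImplicit false

namespace Fermat.Agent.S05lib

variable {K : Type*} [Field K] {Γ₀ : Type*} [LinearOrderedCommGroupWithZero Γ₀]
variable (v : Valuation K Γ₀)

/-- `Sm v t k x` : the element `x` has valuation at most `t ^ k`. -/
def Sm (t : Γ₀) (k : ℕ) (x : K) : Prop := v x ≤ t ^ k

variable {v} {t : Γ₀} {j k : ℕ} {x y a : K}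

theorem Sm.le (h : Sm v t k x) : v x ≤ t ^ k := h

theorem Sm.zero : Sm v t k (0 : K) := by
  unfold Sm; rw [map_zero]; exact zero_le

theorem Sm.add (hx : Sm v t k x) (hy : Sm v t k y) : Sm v t k (x + y) :=
  v.map_add_le hx hy

theorem Sm.neg (hx : Sm v t k x) : Sm v t k (-x) := by
  unfold Sm; rw [Valuation.map_neg]; exact hx

theorem Sm.sub (hx : Sm v t k x) (hy : Sm v t k y) : Sm v t k (x - y) :=
  v.map_sub_le hx hy

theorem Sm.mul (hx : Sm v t j x) (hy : Sm v t k y) : Sm v t (j + k) (x * y) := by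
  unfold Sm; rw [map_mul, pow_add]; exact mul_le_mul' hx hy

theorem Sm.pow (hx : Sm v t j x) (n : ℕ) : Sm v t (j * n) (x ^ n) := by
  unfold Sm; rw [map_pow, pow_mul]; exact pow_le_pow_left₀ zero_le hx n

theorem Sm.mono (ht : t ≤ 1) (hjk : j ≤ k) (hx : Sm v t k x) : Sm v t j x :=
  le_trans hx (pow_le_pow_of_le_one zero_le ht hjk)

theorem Sm.of_int (ha : v a ≤ 1) : Sm v t 0 a := by
  unfold Sm; rw [pow_zero]; exact ha

theorem Sm.int_mul (ha : v a ≤ 1) (hx : Sm v t k x) : Sm v t k (a * x) := by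
  have := (Sm.of_int (t := t) ha).mul hx
  rwa [zero_add] at this

theorem Sm.mul_int (ha : v a ≤ 1) (hx : Sm v t k x) : Sm v t k (x * a) := by
  rw [mul_comm]; exact hx.int_mul ha

theorem Sm.one : Sm v t 0 (1 : K) := Sm.of_int (by rw [map_one])

theorem Sm.natCast (n : ℕ) : Sm v t 0 (n : K) := by
  apply Sm.of_int
  induction n with
  | zero => simp
  | succ n ih =>
    rw [Nat.cast_succ]
    exact v.map_add_le ih (by rw [map_one])

theorem Sm.ofNat (n : ℕ) [n.AtLeastTwo] : Sm v t 0 (OfNat.ofNat n : K) := by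
  have := Sm.natCast (v := v) (t := t) n
  rwa [← Nat.cast_ofNat (R := K)]

/-- `1 - x` is a unit of the valuation ring when `x` is small. -/
theorem val_one_sub_of_sm (ht : t < 1) (hk : 0 < k) (hx : Sm v t k x) : v (1 - x) = 1 := by
  apply Valuation.map_one_sub_of_lt
  refine lt_of_le_of_lt hx ?_
  exact pow_lt_one₀ zero_le ht hk.ne'

end Fermat.Agent.S05lib
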