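/-
S05 support (kernel of reduction): valuations of the coordinates of points "near infinity"
on an integral Weierstrass model.
All declarations live in `Fermat.Agent.S05lib`.
-/
import Fermat.Agent.S05lib.KerRed.Algebra
import Fermat.Agent.S05lib.KerRed.Small

set_option autoImplicit false

namespace Fermat.Agent.S05lib

variable {K : Type*} [Field K] {Γ₀ : Type*} [LinearOrderedCommGroupWithZero Γ₀]
variable (v : Valuation K Γ₀) (W : WeierstrassCurve.Affine K)

/-- The Weierstrass coefficients are integral for the valuation `v`. -/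
structure IntegralModel : Prop where
  a₁ : v W.a₁ ≤ 1
  a₂ : v W.a₂ ≤ 1
  a₃ : v W.a₃ ≤ 1
  a₄ : v W.a₄ ≤ 1
  a₆ : v W.a₆ ≤ 1

variable {v W}

section NearInfinity

variable (hW : IntegralModel v W) {x y : K}
include hW

/-- For a point with `1 < v x`: `v x < v y` and `v y ^ 2 = v x ^ 3`. -/
theorem val_y_of_one_lt (h : W.Equation x y) (hx : 1 < v x) :
    v x < v y ∧ v y ^ 2 = v x ^ 3 := by
  rw [WeierstrassCurve.Affine.equation_iff] at h
  have h' : y * (y + W.a₁ * x + W.a₃) = x ^ 3 + (W.a₂ * x ^ 2 + W.a₄ * x + W.a₆) := by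
    linear_combination h
  have hx0 : (0 : Γ₀) < v x := lt_trans zero_lt_one hx
  have h12 : v x < v x ^ 2 := by
    calc v x = v x ^ 1 := (pow_one _).symm
      _ < v x ^ 2 := pow_lt_pow_right₀ hx (by norm_num)
  have h23 : v x ^ 2 < v x ^ 3 := pow_lt_pow_right₀ hx (by norm_num)
  have hrest : v (W.a₂ * x ^ 2 + W.a₄ * x + W.a₆) ≤ v x ^ 2 := by
    refine v.map_add_le (v.map_add_le ?_ ?_) ?_
    · rw [map_mul, map_pow]
      calc v W.a₂ * v x ^ 2 ≤ 1 * v x ^ 2 := mul_le_mul' hW.a₂ le_rfl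
        _ = v x ^ 2 := one_mul _
    · rw [map_mul]
      calc v W.a₄ * v x ≤ 1 * v x := mul_le_mul' hW.a₄ le_rfl
        _ = v x := one_mul _
        _ ≤ v x ^ 2 := h12.le
    · exact le_trans hW.a₆ (le_trans hx.le h12.le)
  have hR : v (x ^ 3 + (W.a₂ * x ^ 2 + W.a₄ * x + W.a₆)) = v x ^ 3 := by
    rw [Valuation.map_add_eq_of_lt_left, map_pow]
    rw [map_pow]
    exact lt_of_le_of_lt hrest h23
  have hL : v y * v (y + W.a₁ * x + W.a₃) = v x ^ 3 := by
    rw [← map_mul, h', hR]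
  have hax : v (W.a₁ * x + W.a₃) ≤ v x := by
    refine v.map_add_le ?_ (le_trans hW.a₃ hx.le)
    rw [map_mul]
    calc v W.a₁ * v x ≤ 1 * v x := mul_le_mul' hW.a₁ le_rfl
      _ = v x := one_mul _
  have hlt : v x < v y := by
    by_contra hcon
    rw [not_lt] at hcon
    have hs : v (y + W.a₁ * x + W.a₃) ≤ v x := by
      rw [add_assoc]
      exact v.map_add_le hcon hax
    have : v x ^ 3 ≤ v x ^ 2 := by
      rw [← hL, pow_two]
      exact mul_le_mul' hcon hs
    exact absurd this (not_le.mpr h23)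
  refine ⟨hlt, ?_⟩
  have hs : v (y + W.a₁ * x + W.a₃) = v y := by
    rw [add_assoc]
    exact Valuation.map_add_eq_of_lt_left v (lt_of_le_of_lt hax hlt)
  rw [hs] at hL
  rw [pow_two, hL]

/-- For a point with `1 < v x`, `y ≠ 0`. -/
theorem y_ne_zero_of_one_lt (h : W.Equation x y) (hx : 1 < v x) : y ≠ 0 := by
  intro hy
  have := (val_y_of_one_lt hW h hx).1
  rw [hy, map_zero] at this
  exact absurd this (not_lt.mpr zero_le)

/-- `v (x / y) < 1`. -/
theorem val_z_lt_one (h : W.Equation x y) (hx : 1 < v x) : v (x / y) < 1 := by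
  have hy := y_ne_zero_of_one_lt hW h hx
  have hvy : v y ≠ 0 := (Valuation.ne_zero_iff v).mpr hy
  rw [map_div₀, div_lt_one₀ (zero_lt_iff.mpr hvy)]
  exact (val_y_of_one_lt hW h hx).1

/-- `v (x / y) ^ 2 = (v x)⁻¹`. -/
theorem val_z_sq (h : W.Equation x y) (hx : 1 < v x) : v (x / y) ^ 2 = (v x)⁻¹ := by
  have hy := y_ne_zero_of_one_lt hW h hx
  have hvy : v y ≠ 0 := (Valuation.ne_zero_iff v).mpr hy
  have hvx : v x ≠ 0 := (lt_trans zero_lt_one hx).ne'
  have h2 := (val_y_of_one_lt hW h hx).2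
  rw [map_div₀, div_pow, h2]
  field_simp

/-- `v (1 / y) = v (x / y) ^ 3`. -/
theorem val_w (h : W.Equation x y) (hx : 1 < v x) : v (1 / y) = v (x / y) ^ 3 := by
  have hy := y_ne_zero_of_one_lt hW h hx
  have hvy : v y ≠ 0 := (Valuation.ne_zero_iff v).mpr hy
  have hvx : v x ≠ 0 := (lt_trans zero_lt_one hx).ne'
  have h2 := (val_y_of_one_lt hW h hx).2
  rw [map_div₀, map_div₀, map_one, div_pow, ← h2]
  field_simp

end NearInfinity

end Fermat.Agent.S05lib
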