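/-
S05 support (kernel of reduction): the slope of the chord/tangent line in `(z, w)`-coordinates.
With `λ = -ℓ/μ` (`ℓ` the slope, `μ` the intercept) one has `λ * chordU = chordN`.
All declarations live in `Fermat.Agent.S05lib`.
-/
import Fermat.Agent.S05lib.KerRed.Algebra

set_option autoImplicit false

namespace Fermat.Agent.S05lib

variable {K : Type*} [Field K]

/-- Chord case of the key relation, abstract form. -/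
theorem key_chord_core {x₁ y₁ x₂ y₂ ℓ μ U N : K} (hy₁ : y₁ ≠ 0) (hy₂ : y₂ ≠ 0) (hx : x₁ ≠ x₂)
    (hℓ : ℓ = (y₁ - y₂) / (x₁ - x₂)) (hμ : μ = y₁ - ℓ * x₁) (hU : U ≠ 0)
    (cf : ((-1 / y₂) - (-1 / y₁)) * U = ((-x₂ / y₂) - (-x₁ / y₁)) * N) :
    μ ≠ 0 ∧ (-ℓ / μ) * U = N := by
  have hd : x₁ - x₂ ≠ 0 := sub_ne_zero.mpr hx
  have hyy : y₁ * y₂ ≠ 0 := mul_ne_zero hy₁ hy₂
  have hℓ' : ℓ * (x₁ - x₂) = y₁ - y₂ := by rw [hℓ, div_mul_cancel₀ _ hd]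
  have hμ' : μ * (x₁ - x₂) = x₁ * y₂ - x₂ * y₁ := by
    rw [hμ]; linear_combination (-x₁) * hℓ'
  have hz : (-x₂ / y₂) - (-x₁ / y₁) = (x₁ * y₂ - x₂ * y₁) / (y₁ * y₂) := by
    field_simp; ring
  have hw : (-1 / y₂) - (-1 / y₁) = (y₂ - y₁) / (y₁ * y₂) := by
    field_simp; ring
  rw [hz, hw] at cf
  have cf' : (y₂ - y₁) * U = (x₁ * y₂ - x₂ * y₁) * N := by
    have h1 : (y₂ - y₁) * U = ((y₂ - y₁) / (y₁ * y₂) * U) * (y₁ * y₂) := by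
      field_simp
    have h2 : ((x₁ * y₂ - x₂ * y₁) / (y₁ * y₂) * N) * (y₁ * y₂) = (x₁ * y₂ - x₂ * y₁) * N := by
      field_simp
    rw [h1, cf, h2]
  have hne : x₁ * y₂ - x₂ * y₁ ≠ 0 := by
    intro h0
    rw [h0, zero_mul] at cf'
    have hy : y₂ - y₁ = 0 := (mul_eq_zero.mp cf').resolve_right hU
    have hy' : y₂ = y₁ := sub_eq_zero.mp hy
    rw [hy'] at h0
    have : (x₁ - x₂) * y₁ = 0 := by linear_combination h0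
    rcases mul_eq_zero.mp this with h | h
    · exact hd h
    · exact hy₁ h
  have hμ0 : μ ≠ 0 := by
    intro h
    rw [h, zero_mul] at hμ'
    exact hne hμ'.symm
  refine ⟨hμ0, ?_⟩
  rw [div_mul_eq_mul_div, div_eq_iff hμ0]
  -- goal: -ℓ * U = N * μ
  have : (x₁ - x₂) * (-ℓ * U) = (x₁ - x₂) * (N * μ) := by
    linear_combination (-U) * hℓ' + cf' - N * hμ'
  exact mul_left_cancel₀ hd this

/-- Tangent case of the key relation, abstract form. -/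
theorem key_tangent_core {a₁ a₂ a₃ a₄ a₆ x y ℓ μ : K}
    (h : y ^ 2 + a₁ * x * y + a₃ * y = x ^ 3 + a₂ * x ^ 2 + a₄ * x + a₆) (hy : y ≠ 0)
    (hB0 : 2 * y + a₁ * x + a₃ ≠ 0)
    (hℓ : ℓ = (3 * x ^ 2 + 2 * a₂ * x + a₄ - a₁ * y) / (2 * y + a₁ * x + a₃))
    (hμ : μ = y - ℓ * x)
    (hU : chordU a₁ a₂ a₃ a₄ a₆ (-x / y) (-1 / y) (-1 / y) ≠ 0) :
    μ ≠ 0 ∧ (-ℓ / μ) * chordU a₁ a₂ a₃ a₄ a₆ (-x / y) (-1 / y) (-1 / y)
      = chordN a₁ a₂ a₄ (-x / y) (-x / y) (-1 / y) := by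
  have hQU : y ^ 2 * chordU a₁ a₂ a₃ a₄ a₆ (-x / y) (-1 / y) (-1 / y)
      = y ^ 2 + a₁ * x * y - a₂ * x ^ 2 + 2 * a₃ * y - 2 * a₄ * x - 3 * a₆ := by
    unfold chordU; field_simp; ring
  have hAN : y ^ 2 * chordN a₁ a₂ a₄ (-x / y) (-x / y) (-1 / y)
      = 3 * x ^ 2 + 2 * a₂ * x + a₄ - a₁ * y := by
    unfold chordN; field_simp; ring
  generalize chordU a₁ a₂ a₃ a₄ a₆ (-x / y) (-1 / y) (-1 / y) = U at *
  generalize chordN a₁ a₂ a₄ (-x / y) (-x / y) (-1 / y) = N at *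
  have hℓ' : ℓ * (2 * y + a₁ * x + a₃) = 3 * x ^ 2 + 2 * a₂ * x + a₄ - a₁ * y := by
    rw [hℓ, div_mul_cancel₀ _ hB0]
  have hBμ : (2 * y + a₁ * x + a₃) * μ = -(y ^ 2 * U) := by
    rw [hQU, hμ]; linear_combination (-x) * hℓ' + 3 * h
  have hy2 : y ^ 2 ≠ 0 := pow_ne_zero 2 hy
  have hμ0 : μ ≠ 0 := by
    intro h0
    rw [h0, mul_zero] at hBμ
    have : y ^ 2 * U = 0 := by linear_combination hBμ
    exact (mul_ne_zero hy2 hU) this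
  refine ⟨hμ0, ?_⟩
  rw [div_mul_eq_mul_div, div_eq_iff hμ0]
  have : (2 * y + a₁ * x + a₃) * (-ℓ * U) = (2 * y + a₁ * x + a₃) * (N * μ) := by
    linear_combination (-U) * hℓ' - N * hBμ + U * hAN
  exact mul_left_cancel₀ hB0 this

/-- `cThree (-ℓ/μ) * μ ^ 3`. -/
theorem cThree_mul (a₂ a₄ a₆ ℓ μ : K) (hμ : μ ≠ 0) :
    cThree a₂ a₄ a₆ (-ℓ / μ) * μ ^ 3
      = μ ^ 3 - a₂ * ℓ * μ ^ 2 + a₄ * ℓ ^ 2 * μ - a₆ * ℓ ^ 3 := by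
  unfold cThree; field_simp; ring

variable (W : WeierstrassCurve.Affine K)

/-- The key relation `λ * chordU = chordN` for `λ = -ℓ/μ`, where `ℓ` is the slope of the
chord/tangent through two points with nonzero `y`-coordinates and `μ` its intercept. -/
theorem key_lambda [DecidableEq K] {x₁ x₂ y₁ y₂ : K} (h₁ : W.Equation x₁ y₁)
    (h₂ : W.Equation x₂ y₂) (hxy : ¬(x₁ = x₂ ∧ y₁ = W.negY x₂ y₂)) (hy₁ : y₁ ≠ 0) (hy₂ : y₂ ≠ 0)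
    (ℓ μ : K) (hℓ : ℓ = W.slope x₁ x₂ y₁ y₂) (hμ : μ = y₁ - ℓ * x₁)
    (hU : chordU W.a₁ W.a₂ W.a₃ W.a₄ W.a₆ (-x₁ / y₁) (-1 / y₁) (-1 / y₂) ≠ 0) :
    μ ≠ 0 ∧ (-ℓ / μ) * chordU W.a₁ W.a₂ W.a₃ W.a₄ W.a₆ (-x₁ / y₁) (-1 / y₁) (-1 / y₂)
      = chordN W.a₁ W.a₂ W.a₄ (-x₁ / y₁) (-x₂ / y₂) (-1 / y₂) := by
  by_cases hx : x₁ = x₂
  · have hy : y₁ ≠ W.negY x₂ y₂ := fun h => hxy ⟨hx, h⟩
    have hyy := WeierstrassCurve.Affine.Y_eq_of_Y_ne h₁ h₂ hx hy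
    subst hx
    subst hyy
    have hB0 : 2 * y₁ + W.a₁ * x₁ + W.a₃ ≠ 0 := by
      intro h0
      apply hy
      rw [WeierstrassCurve.Affine.negY]
      linear_combination h0
    refine key_tangent_core ((WeierstrassCurve.Affine.equation_iff ..).mp h₁) hy₁ hB0 ?_ hμ hU
    rw [hℓ, WeierstrassCurve.Affine.slope_of_Y_ne rfl hy, WeierstrassCurve.Affine.negY]
    congr 1
    ring
  · refine key_chord_core hy₁ hy₂ hx ?_ hμ hU ?_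
    · rw [hℓ, WeierstrassCurve.Affine.slope_of_X_ne hx]
    · exact chord_factor W.a₁ W.a₂ W.a₃ W.a₄ W.a₆ (zw_equation W h₁ hy₁) (zw_equation W h₂ hy₂)

/-- The third intersection point lies on the line (`negAddY = ℓ x₃ + μ`). -/
theorem negAddY_eq_line (x₁ x₂ y₁ ℓ μ : K) (hμ : μ = y₁ - ℓ * x₁) :
    W.negAddY x₁ x₂ y₁ ℓ = ℓ * W.addX x₁ x₂ ℓ + μ := by
  rw [WeierstrassCurve.Affine.negAddY, hμ]; ring

end Fermat.Agent.S05lib
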