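/-
S05 support (kernel of reduction): the valuation estimates for the group law near infinity.
Main results: `neg_estimate` and `add_estimate`.
All declarations live in `Fermat.Agent.S05lib`.
-/
import Fermat.Agent.S05lib.KerRed.Chord
import Fermat.Agent.S05lib.KerRed.Basic

set_option autoImplicit false

namespace Fermat.Agent.S05lib

variable {K : Type*} [Field K] {Γ₀ : Type*} [LinearOrderedCommGroupWithZero Γ₀]
variable {v : Valuation K Γ₀}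

section Abstract

variable {a₁ a₂ a₃ a₄ a₆ : K} {t : Γ₀}

/-- The factor `chordU` is a unit. -/
theorem val_chordU (ha₁ : v a₁ ≤ 1) (ha₂ : v a₂ ≤ 1) (ha₃ : v a₃ ≤ 1) (ha₄ : v a₄ ≤ 1)
    (ha₆ : v a₆ ≤ 1) (ht : t < 1) {z₁ w₁ w₂ : K}
    (sz₁ : Sm v t 1 z₁) (sw₁ : Sm v t 1 w₁) (sw₂ : Sm v t 1 w₂) :
    v (chordU a₁ a₂ a₃ a₄ a₆ z₁ w₁ w₂) = 1 := by
  have ht1 : t ≤ 1 := ht.le
  have i₁ : Sm v t 0 a₁ := Sm.of_int ha₁
  have i₂ : Sm v t 0 a₂ := Sm.of_int ha₂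
  have i₃ : Sm v t 0 a₃ := Sm.of_int ha₃
  have i₄ : Sm v t 0 a₄ := Sm.of_int ha₄
  have i₆ : Sm v t 0 a₆ := Sm.of_int ha₆
  have e : chordU a₁ a₂ a₃ a₄ a₆ z₁ w₁ w₂ = 1 - (a₁ * z₁ + a₂ * z₁ ^ 2 + a₃ * (w₁ + w₂)
      + a₄ * z₁ * (w₁ + w₂) + a₆ * (w₁ ^ 2 + w₁ * w₂ + w₂ ^ 2)) := by
    unfold chordU; ring
  rw [e]
  apply val_one_sub_of_sm ht (k := 1) one_pos
  refine Sm.add (Sm.add (Sm.add (Sm.add ?_ ?_) ?_) ?_) ?_
  · exact (i₁.mul sz₁).mono ht1 (by norm_num)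
  · exact (i₂.mul (sz₁.pow 2)).mono ht1 (by norm_num)
  · exact (i₃.mul (sw₁.add sw₂)).mono ht1 (by norm_num)
  · exact ((i₄.mul sz₁).mul (sw₁.add sw₂)).mono ht1 (by norm_num)
  · have s : Sm v t 1 (w₁ ^ 2 + w₁ * w₂ + w₂ ^ 2) := by
      refine Sm.add (Sm.add ?_ ?_) ?_
      · exact (sw₁.pow 2).mono ht1 (by norm_num)
      · exact (sw₁.mul sw₂).mono ht1 (by norm_num)
      · exact (sw₂.pow 2).mono ht1 (by norm_num)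
    exact (i₆.mul s).mono ht1 (by norm_num)

/-- Valuation estimates for the line `w = λ z + ν` through two points near infinity. -/
theorem val_core (ha₁ : v a₁ ≤ 1) (ha₂ : v a₂ ≤ 1) (ha₃ : v a₃ ≤ 1) (ha₄ : v a₄ ≤ 1)
    (ha₆ : v a₆ ≤ 1) (ht : t < 1) {z₁ w₁ z₂ w₂ lam nu : K}
    (sz₁ : Sm v t 1 z₁) (sw₁ : Sm v t 3 w₁) (sz₂ : Sm v t 1 z₂) (sw₂ : Sm v t 3 w₂)
    (hlam : lam * chordU a₁ a₂ a₃ a₄ a₆ z₁ w₁ w₂ = chordN a₁ a₂ a₄ z₁ z₂ w₂)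
    (hnu : nu = w₁ - lam * z₁) :
    Sm v t 2 lam ∧ Sm v t 3 nu ∧ v (cThree a₂ a₄ a₆ lam) = 1 ∧
      Sm v t 2 (cTwo a₁ a₂ a₃ a₄ a₆ lam nu) := by
  have ht1 : t ≤ 1 := ht.le
  have i₁ : Sm v t 0 a₁ := Sm.of_int ha₁
  have i₂ : Sm v t 0 a₂ := Sm.of_int ha₂
  have i₃ : Sm v t 0 a₃ := Sm.of_int ha₃
  have i₄ : Sm v t 0 a₄ := Sm.of_int ha₄
  have i₆ : Sm v t 0 a₆ := Sm.of_int ha₆
  have n2 : Sm v t 0 (2 : K) := Sm.ofNat 2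
  have n3 : Sm v t 0 (3 : K) := Sm.ofNat 3
  have hU : v (chordU a₁ a₂ a₃ a₄ a₆ z₁ w₁ w₂) = 1 :=
    val_chordU ha₁ ha₂ ha₃ ha₄ ha₆ ht sz₁ (sw₁.mono ht1 (by norm_num))
      (sw₂.mono ht1 (by norm_num))
  have sN : Sm v t 2 (chordN a₁ a₂ a₄ z₁ z₂ w₂) := by
    unfold chordN
    refine Sm.add (Sm.add (Sm.add (Sm.add (Sm.add ?_ ?_) ?_) ?_) ?_) ?_
    · exact (sz₁.pow 2).mono ht1 (by norm_num)
    · exact (sz₁.mul sz₂).mono ht1 (by norm_num)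
    · exact (sz₂.pow 2).mono ht1 (by norm_num)
    · exact (i₁.mul sw₂).mono ht1 (by norm_num)
    · exact ((i₂.mul (sz₁.add sz₂)).mul sw₂).mono ht1 (by norm_num)
    · exact (i₄.mul (sw₂.pow 2)).mono ht1 (by norm_num)
  have slam : Sm v t 2 lam := by
    have : v lam = v (chordN a₁ a₂ a₄ z₁ z₂ w₂) := by rw [← hlam, map_mul, hU, mul_one]
    unfold Sm; rw [this]; exact sN
  have snu : Sm v t 3 nu := by
    rw [hnu]; exact sw₁.sub ((slam.mul sz₁).mono ht1 (by norm_num))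
  refine ⟨slam, snu, ?_, ?_⟩
  · have e : cThree a₂ a₄ a₆ lam = 1 - (-(a₂ * lam + a₄ * lam ^ 2 + a₆ * lam ^ 3)) := by
      unfold cThree; ring
    rw [e]
    apply val_one_sub_of_sm ht (k := 2) (by norm_num)
    refine Sm.neg (Sm.add (Sm.add ?_ ?_) ?_)
    · exact (i₂.mul slam).mono ht1 (by norm_num)
    · exact (i₄.mul (slam.pow 2)).mono ht1 (by norm_num)
    · exact (i₆.mul (slam.pow 3)).mono ht1 (by norm_num)
  · unfold cTwo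
    refine Sm.add (Sm.add (Sm.add (Sm.add ?_ ?_) ?_) ?_) ?_
    · exact (i₁.mul slam).mono ht1 (by norm_num)
    · exact (i₂.mul snu).mono ht1 (by norm_num)
    · exact (i₃.mul (slam.pow 2)).mono ht1 (by norm_num)
    · exact (((n2.mul i₄).mul slam).mul snu).mono ht1 (by norm_num)
    · exact (((n3.mul i₆).mul (slam.pow 2)).mul snu).mono ht1 (by norm_num)

/-- Valuation estimates for the third intersection point. -/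
theorem val_third (ha₁ : v a₁ ≤ 1) (ha₂ : v a₂ ≤ 1) (ha₃ : v a₃ ≤ 1) (ha₄ : v a₄ ≤ 1)
    (ha₆ : v a₆ ≤ 1) (ht : t < 1) {z₁ z₂ z₃ w₃ lam nu c₂ c₃ : K}
    (sz₁ : Sm v t 1 z₁) (sz₂ : Sm v t 1 z₂) (slam : Sm v t 2 lam) (snu : Sm v t 3 nu)
    (hc3 : v c₃ = 1) (sc2 : Sm v t 2 c₂)
    (hsum : z₁ + z₂ + z₃ = -(c₂ / c₃)) (e₃ : ZWEq a₁ a₂ a₃ a₄ a₆ z₃ w₃)
    (hline : w₃ = lam * z₃ + nu) (hw₃ : w₃ ≠ 0) :
    Sm v t 1 z₃ ∧ z₃ ≠ 0 ∧ v w₃ = v z₃ ^ 3 ∧ Sm v t 2 (z₁ + z₂ + z₃) := by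
  have ht1 : t ≤ 1 := ht.le
  have i₁ : Sm v t 0 a₁ := Sm.of_int ha₁
  have i₂ : Sm v t 0 a₂ := Sm.of_int ha₂
  have i₃ : Sm v t 0 a₃ := Sm.of_int ha₃
  have i₄ : Sm v t 0 a₄ := Sm.of_int ha₄
  have i₆ : Sm v t 0 a₆ := Sm.of_int ha₆
  have sq : Sm v t 2 (c₂ / c₃) := by
    unfold Sm; rw [map_div₀, hc3, div_one]; exact sc2
  have s123 : Sm v t 2 (z₁ + z₂ + z₃) := by rw [hsum]; exact sq.neg
  have sz₃ : Sm v t 1 z₃ := by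
    have e : z₃ = (z₁ + z₂ + z₃) - z₁ - z₂ := by ring
    rw [e]; exact ((s123.mono ht1 (by norm_num)).sub sz₁).sub sz₂
  have sw₃ : Sm v t 3 w₃ := by
    rw [hline]; exact ((slam.mul sz₃).mono ht1 (by norm_num)).add snu
  have hU₃ : v (1 - a₁ * z₃ - a₂ * z₃ ^ 2 - a₃ * w₃ - a₄ * z₃ * w₃ - a₆ * w₃ ^ 2) = 1 := by
    have e : 1 - a₁ * z₃ - a₂ * z₃ ^ 2 - a₃ * w₃ - a₄ * z₃ * w₃ - a₆ * w₃ ^ 2
        = 1 - (a₁ * z₃ + a₂ * z₃ ^ 2 + a₃ * w₃ + a₄ * z₃ * w₃ + a₆ * w₃ ^ 2) := by ring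
    rw [e]
    apply val_one_sub_of_sm ht (k := 1) one_pos
    refine Sm.add (Sm.add (Sm.add (Sm.add ?_ ?_) ?_) ?_) ?_
    · exact (i₁.mul sz₃).mono ht1 (by norm_num)
    · exact (i₂.mul (sz₃.pow 2)).mono ht1 (by norm_num)
    · exact (i₃.mul sw₃).mono ht1 (by norm_num)
    · exact ((i₄.mul sz₃).mul sw₃).mono ht1 (by norm_num)
    · exact (i₆.mul (sw₃.pow 2)).mono ht1 (by norm_num)
  have huf := zw_unit_factor a₁ a₂ a₃ a₄ a₆ e₃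
  have hvw : v w₃ = v z₃ ^ 3 := by
    have := congrArg v huf
    rw [map_mul, hU₃, mul_one, map_pow] at this
    exact this
  refine ⟨sz₃, ?_, hvw, s123⟩
  intro h0
  rw [h0, map_zero, zero_pow (by norm_num)] at hvw
  exact hw₃ ((map_eq_zero v).mp hvw)

end Abstract

variable {W : WeierstrassCurve.Affine K}

/-- Negation changes `z = -x/y` only to second order. -/
theorem neg_estimate (hW : IntegralModel v W) {x y : K} (h : W.Equation x y) (hx : 1 < v x) :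
    v (-x / W.negY x y + -x / y) ≤ (v x)⁻¹ := by
  have hy := y_ne_zero_of_one_lt hW h hx
  have h' : W.Equation x (W.negY x y) := (WeierstrassCurve.Affine.equation_neg x y).mpr h
  have hy' := y_ne_zero_of_one_lt hW h' hx
  have hvx0 : v x ≠ 0 := (lt_trans zero_lt_one hx).ne'
  have e : -x / W.negY x y + -x / y = x * (W.a₁ * x + W.a₃) / (y * W.negY x y) := by
    have : y + W.negY x y = -(W.a₁ * x + W.a₃) := by
      rw [WeierstrassCurve.Affine.negY]; ring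
    field_simp
    linear_combination (-x) * this
  have hax : v (W.a₁ * x + W.a₃) ≤ v x := by
    refine v.map_add_le ?_ (le_trans hW.a₃ hx.le)
    rw [map_mul]
    calc v W.a₁ * v x ≤ 1 * v x := mul_le_mul' hW.a₁ le_rfl
      _ = v x := one_mul _
  have hyy : v (y * W.negY x y) = v x ^ 3 := by
    have h2 := (val_y_of_one_lt hW h hx).2
    have hlt := (val_y_of_one_lt hW h hx).1
    have hn : v (W.negY x y) = v y := by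
      have : W.negY x y = -y + -(W.a₁ * x + W.a₃) := by
        rw [WeierstrassCurve.Affine.negY]; ring
      rw [this]
      have hlt' : v (-(W.a₁ * x + W.a₃)) < v (-y) := by
        rw [Valuation.map_neg, Valuation.map_neg]; exact lt_of_le_of_lt hax hlt
      rw [Valuation.map_add_eq_of_lt_left v hlt', Valuation.map_neg]
    rw [map_mul, hn, ← pow_two, h2]
  rw [e, map_div₀, hyy, map_mul]
  have hnum : v x * v (W.a₁ * x + W.a₃) ≤ v x ^ 2 := by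
    rw [pow_two]; exact mul_le_mul' le_rfl hax
  calc v x * v (W.a₁ * x + W.a₃) / v x ^ 3 ≤ v x ^ 2 / v x ^ 3 := by
        exact div_le_div_of_nonneg_right hnum zero_le
    _ = (v x)⁻¹ := by field_simp

/-- The main estimate: the sum of two affine points near infinity is near infinity, and
`z = -x/y` is additive up to second order. -/
theorem add_estimate [DecidableEq K] (hW : IntegralModel v W) {x₁ x₂ y₁ y₂ : K}
    (h₁ : W.Equation x₁ y₁) (h₂ : W.Equation x₂ y₂) (hx₁ : 1 < v x₁) (hx₂ : 1 < v x₂)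
    (hxy : ¬(x₁ = x₂ ∧ y₁ = W.negY x₂ y₂)) {t : Γ₀} (ht : t < 1)
    (hz₁ : v (-x₁ / y₁) ≤ t) (hz₂ : v (-x₂ / y₂) ≤ t) :
    1 < v (W.addX x₁ x₂ (W.slope x₁ x₂ y₁ y₂)) ∧
    v (-(W.addX x₁ x₂ (W.slope x₁ x₂ y₁ y₂)) / (W.addY x₁ x₂ y₁ (W.slope x₁ x₂ y₁ y₂))
        - (-x₁ / y₁) - (-x₂ / y₂)) ≤ t ^ 2 := by
  have ht1 : t ≤ 1 := ht.le
  have hy₁ := y_ne_zero_of_one_lt hW h₁ hx₁
  have hy₂ := y_ne_zero_of_one_lt hW h₂ hx₂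
  obtain ⟨ℓ, hℓ⟩ : ∃ ℓ, ℓ = W.slope x₁ x₂ y₁ y₂ := ⟨_, rfl⟩
  obtain ⟨μ, hμ⟩ : ∃ μ, μ = y₁ - ℓ * x₁ := ⟨_, rfl⟩
  obtain ⟨x₃, hx₃⟩ : ∃ x₃, x₃ = W.addX x₁ x₂ ℓ := ⟨_, rfl⟩
  rw [← hℓ, ← hx₃]
  -- smallness of the (z, w)-coordinates
  have sz₁ : Sm v t 1 (-x₁ / y₁) := by unfold Sm; rwa [pow_one]
  have sz₂ : Sm v t 1 (-x₂ / y₂) := by unfold Sm; rwa [pow_one]
  have sw₁ : Sm v t 3 (-1 / y₁) := by
    unfold Sm
    have hw := val_w hW h₁ hx₁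
    have hz : v (x₁ / y₁) ≤ t := by rwa [neg_div, Valuation.map_neg] at hz₁
    rw [neg_div, Valuation.map_neg, hw]
    exact pow_le_pow_left₀ zero_le hz 3
  have sw₂ : Sm v t 3 (-1 / y₂) := by
    unfold Sm
    have hw := val_w hW h₂ hx₂
    have hz : v (x₂ / y₂) ≤ t := by rwa [neg_div, Valuation.map_neg] at hz₂
    rw [neg_div, Valuation.map_neg, hw]
    exact pow_le_pow_left₀ zero_le hz 3
  -- the key relation
  have hUval := val_chordU hW.a₁ hW.a₂ hW.a₃ hW.a₄ hW.a₆ ht sz₁ (sw₁.mono ht1 (by norm_num))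
    (sw₂.mono ht1 (by norm_num))
  have hU0 : chordU W.a₁ W.a₂ W.a₃ W.a₄ W.a₆ (-x₁ / y₁) (-1 / y₁) (-1 / y₂) ≠ 0 := by
    intro h0; rw [h0, map_zero] at hUval; exact zero_ne_one hUval
  obtain ⟨hμ0, hlam⟩ := key_lambda W h₁ h₂ hxy hy₁ hy₂ ℓ μ hℓ hμ hU0
  have hnu : -1 / μ = (-1 / y₁) - (-ℓ / μ) * (-x₁ / y₁) := by
    field_simp
    linear_combination hμ
  obtain ⟨slam, snu, hc3, sc2⟩ :=
    val_core hW.a₁ hW.a₂ hW.a₃ hW.a₄ hW.a₆ ht sz₁ sw₁ sz₂ sw₂ hlam hnu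
  -- Vieta and the line lemma
  obtain ⟨V1, V2, V3⟩ := vieta_mu W h₁ h₂ hxy ℓ μ x₃ hℓ hμ hx₃
  have hY₂ : y₂ = ℓ * x₂ + μ := snd_on_line W h₁ h₂ hxy ℓ μ hℓ hμ
  have hY₁ : y₁ = ℓ * x₁ + μ := by rw [hμ]; ring
  have hden := line_den W.a₁ W.a₂ W.a₃ W.a₄ W.a₆ V1 V2 V3
  have hc3mul := cThree_mul W.a₂ W.a₄ W.a₆ ℓ μ hμ0
  have hc30 : cThree W.a₂ W.a₄ W.a₆ (-ℓ / μ) ≠ 0 := by
    intro h0; rw [h0, map_zero] at hc3; exact zero_ne_one hc3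
  have hY₃ : ℓ * x₃ + μ ≠ 0 := by
    intro h0
    rw [h0, mul_zero, ← hc3mul] at hden
    exact (mul_ne_zero hc30 (pow_ne_zero 3 hμ0)) hden.symm
  have hy₁' : ℓ * x₁ + μ ≠ 0 := by rw [← hY₁]; exact hy₁
  have hy₂' : ℓ * x₂ + μ ≠ 0 := by rw [← hY₂]; exact hy₂
  have hsum := line_sum W.a₁ W.a₂ W.a₃ W.a₄ W.a₆ V1 V2 V3 hμ0 hy₁' hy₂' hY₃
  rw [← hY₁, ← hY₂] at hsum
  -- the third point
  have hneg : W.negAddY x₁ x₂ y₁ ℓ = ℓ * x₃ + μ := by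
    rw [negAddY_eq_line W x₁ x₂ y₁ ℓ μ hμ, hx₃]
  have h₃ : W.Equation x₃ (ℓ * x₃ + μ) := by
    have := WeierstrassCurve.Affine.equation_negAdd h₁ h₂ hxy
    rw [← hℓ, ← hx₃, hneg] at this
    exact this
  have e₃ := zw_equation W h₃ hY₃
  have hline : -1 / (ℓ * x₃ + μ) = (-ℓ / μ) * (-x₃ / (ℓ * x₃ + μ)) + (-1 / μ) := by
    field_simp; ring
  have hw₃ : -1 / (ℓ * x₃ + μ) ≠ 0 := div_ne_zero (neg_ne_zero.mpr one_ne_zero) hY₃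
  have hsum' : (-x₁ / y₁) + (-x₂ / y₂) + (-x₃ / (ℓ * x₃ + μ))
      = -(cTwo W.a₁ W.a₂ W.a₃ W.a₄ W.a₆ (-ℓ / μ) (-1 / μ) / cThree W.a₂ W.a₄ W.a₆ (-ℓ / μ)) := by
    rw [neg_div, neg_div, neg_div]; linear_combination (-1) * hsum
  obtain ⟨sz₃, hz₃0, hvw, s123⟩ := val_third hW.a₁ hW.a₂ hW.a₃ hW.a₄ hW.a₆ ht sz₁ sz₂ slam snu
    hc3 sc2 hsum' e₃ hline hw₃
  -- the valuation of `x₃`
  have hz0 : v (-x₃ / (ℓ * x₃ + μ)) ≠ 0 := (Valuation.ne_zero_iff v).mpr hz₃0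
  have hx₃eq : x₃ = (-x₃ / (ℓ * x₃ + μ)) / (-1 / (ℓ * x₃ + μ)) := by
    rw [div_div_div_cancel_right₀ hY₃]; ring
  have hvx₃ : v x₃ = (v (-x₃ / (ℓ * x₃ + μ)) ^ 2)⁻¹ := by
    conv_lhs => rw [hx₃eq]
    rw [map_div₀, hvw]
    field_simp
  have sz₃' : v (-x₃ / (ℓ * x₃ + μ)) ≤ t := by have := sz₃.le; rwa [pow_one] at this
  have hz₃lt : v (-x₃ / (ℓ * x₃ + μ)) ^ 2 < 1 :=
    pow_lt_one₀ zero_le (lt_of_le_of_lt sz₃' ht) (by norm_num)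
  have h1x₃ : 1 < v x₃ := by
    rw [hvx₃]
    exact (one_lt_inv₀ (zero_lt_iff.mpr (pow_ne_zero 2 hz0))).mpr hz₃lt
  refine ⟨h1x₃, ?_⟩
  have hnegest := neg_estimate hW h₃ h1x₃
  have haddY : W.addY x₁ x₂ y₁ ℓ = W.negY x₃ (ℓ * x₃ + μ) := by
    rw [WeierstrassCurve.Affine.addY, ← hx₃, hneg]
  rw [haddY]
  have e : -x₃ / W.negY x₃ (ℓ * x₃ + μ) - -x₁ / y₁ - -x₂ / y₂
      = (-x₃ / W.negY x₃ (ℓ * x₃ + μ) + -x₃ / (ℓ * x₃ + μ))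
        - (-x₁ / y₁ + -x₂ / y₂ + -x₃ / (ℓ * x₃ + μ)) := by ring
  rw [e]
  refine v.map_sub_le ?_ s123.le
  refine le_trans hnegest ?_
  rw [hvx₃, inv_inv]
  exact pow_le_pow_left₀ zero_le sz₃' 2

end Fermat.Agent.S05lib
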