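/-
S05 support: the kernel of reduction `E₁` of an integral Weierstrass model over a valued field.
* `InE1 v W P`          : `P = 0` or `1 < v (x P)`
* `InE1.neg`, `InE1.add`: `E₁` is a subgroup (`kerRed`)
* `InE1.eq_zero_of_nsmul`: no `n`-torsion in `E₁` if `v n = 1`
* `inE1_sub_of_congr`   : congruent integral points with nonsingular reduction differ by `E₁`
All declarations live in `Fermat.Agent.S05lib`.
-/
import Fermat.Agent.S05lib.KerRed.Estimate

set_option autoImplicit false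

namespace Fermat.Agent.S05lib

open WeierstrassCurve WeierstrassCurve.Affine

variable {K : Type*} [Field K]
variable {Γ₀ : Type*} [LinearOrderedCommGroupWithZero Γ₀]
variable (v : Valuation K Γ₀) (W : WeierstrassCurve.Affine K)

/-- Membership in the kernel of reduction: the point at infinity, or `1 < v x`. -/
def InE1 : W.Point → Prop
  | .zero => True
  | .some x _ _ => 1 < v x

variable {v W}

@[simp] theorem inE1_zero : InE1 v W 0 := trivial

@[simp] theorem inE1_some {x y : K} (h : W.Nonsingular x y) :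
    InE1 v W (.some x y h) ↔ 1 < v x := Iff.rfl

theorem InE1.neg {P : W.Point} (hP : InE1 v W P) : InE1 v W (-P) := by
  rcases P with _ | ⟨x, y, h⟩
  · exact hP
  · rw [Point.neg_some]; exact hP

/-- The local parameter `z = -x/y` at infinity (and `z 0 = 0`). -/
noncomputable def zc : W.Point → K
  | .zero => 0
  | .some x y _ => -x / y

@[simp] theorem zc_zero : zc (0 : W.Point) = 0 := rfl

@[simp] theorem zc_some {x y : K} (h : W.Nonsingular x y) : zc (Point.some x y h) = -x / y := rfl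

theorem val_natCast_le_one (n : ℕ) : v (n : K) ≤ 1 := by
  have := (Sm.natCast (v := v) (t := (1 : Γ₀)) n).le
  simpa using this

variable [DecidableEq K]

/-- `E₁` is closed under addition, and `zc` is additive up to second order. -/
theorem zc_add_estimate (hW : IntegralModel v W) {P Q : W.Point} (hP : InE1 v W P)
    (hQ : InE1 v W Q) {t : Γ₀} (ht : t < 1) (hzP : v (zc P) ≤ t) (hzQ : v (zc Q) ≤ t) :
    InE1 v W (P + Q) ∧ v (zc (P + Q) - zc P - zc Q) ≤ t ^ 2 := by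
  rcases P with _ | ⟨x₁, y₁, h₁⟩
  · have e : (Point.zero : W.Point) + Q = Q := zero_add Q
    rw [e]
    refine ⟨hQ, ?_⟩
    have : zc Q - zc (Point.zero : W.Point) - zc Q = 0 := by
      show zc Q - 0 - zc Q = 0
      ring
    rw [this, map_zero]; exact zero_le
  rcases Q with _ | ⟨x₂, y₂, h₂⟩
  · have e : Point.some x₁ y₁ h₁ + (Point.zero : W.Point) = Point.some x₁ y₁ h₁ := add_zero _
    rw [e]
    refine ⟨hP, ?_⟩
    have : zc (Point.some x₁ y₁ h₁) - zc (Point.some x₁ y₁ h₁) - zc (Point.zero : W.Point) = 0 := by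
      show zc (Point.some x₁ y₁ h₁) - zc (Point.some x₁ y₁ h₁) - 0 = 0
      ring
    rw [this, map_zero]; exact zero_le
  have hx₁ : 1 < v x₁ := hP
  have hx₂ : 1 < v x₂ := hQ
  have hz₁ : v (-x₁ / y₁) ≤ t := hzP
  have hz₂ : v (-x₂ / y₂) ≤ t := hzQ
  by_cases hxy : x₁ = x₂ ∧ y₁ = W.negY x₂ y₂
  · rw [Point.add_of_Y_eq hxy.1 hxy.2]
    refine ⟨trivial, ?_⟩
    show v (0 - -x₁ / y₁ - -x₂ / y₂) ≤ t ^ 2
    rw [hxy.2, hxy.1]
    have hne := neg_estimate hW h₂.1 hx₂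
    have hzs := val_z_sq hW h₂.1 hx₂
    have e : (0 : K) - -x₂ / W.negY x₂ y₂ - -x₂ / y₂ = -(-x₂ / W.negY x₂ y₂ + -x₂ / y₂) := by ring
    rw [e, Valuation.map_neg]
    refine le_trans hne ?_
    rw [← hzs]
    have : v (x₂ / y₂) ≤ t := by rwa [neg_div, Valuation.map_neg] at hz₂
    exact pow_le_pow_left₀ zero_le this 2
  · rw [Point.add_some hxy]
    exact add_estimate hW h₁.1 h₂.1 hx₁ hx₂ hxy ht hz₁ hz₂

theorem InE1.add (hW : IntegralModel v W) {P Q : W.Point} (hP : InE1 v W P) (hQ : InE1 v W Q) :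
    InE1 v W (P + Q) := by
  -- choose `t` as the maximum of the two `z`-valuations (or anything `< 1` bounding them)
  have key : ∀ {R : W.Point}, InE1 v W R → v (zc R) < 1 := by
    intro R hR
    rcases R with _ | ⟨x, y, h⟩
    · show v (0 : K) < 1
      rw [map_zero]; exact zero_lt_one
    · show v (-x / y) < 1
      rw [neg_div, Valuation.map_neg]
      exact val_z_lt_one hW h.1 hR
  have h1 := key hP
  have h2 := key hQ
  exact (zc_add_estimate hW hP hQ (max_lt h1 h2) (le_max_left _ _) (le_max_right _ _)).1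

/-- The kernel of reduction as a subgroup. -/
def kerRed (hW : IntegralModel v W) : AddSubgroup W.Point where
  carrier := {P | InE1 v W P}
  zero_mem' := trivial
  add_mem' := fun hP hQ => InE1.add hW hP hQ
  neg_mem' := fun hP => InE1.neg hP

@[simp] theorem mem_kerRed (hW : IntegralModel v W) {P : W.Point} :
    P ∈ kerRed hW ↔ InE1 v W P := Iff.rfl

/-- `zc (k • P) ≡ k * zc P` up to second order. -/
theorem zc_nsmul_estimate (hW : IntegralModel v W) {P : W.Point} (hP : InE1 v W P) {t : Γ₀}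
    (ht : t < 1) (hz : v (zc P) ≤ t) (k : ℕ) :
    InE1 v W (k • P) ∧ v (zc (k • P) - k * zc P) ≤ t ^ 2 := by
  induction k with
  | zero =>
    rw [zero_smul]
    refine ⟨trivial, ?_⟩
    have : zc (0 : W.Point) - ((0 : ℕ) : K) * zc P = 0 := by
      rw [zc_zero]; push_cast; ring
    rw [this, map_zero]; exact zero_le
  | succ k ih =>
    obtain ⟨ih1, ih2⟩ := ih
    have ht2 : t ^ 2 ≤ t := by
      calc t ^ 2 = t * t := pow_two t
        _ ≤ t * 1 := mul_le_mul' le_rfl ht.le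
        _ = t := mul_one t
    have hk : v (zc (k • P)) ≤ t := by
      have e : zc (k • P) = (zc (k • P) - k * zc P) + k * zc P := by ring
      rw [e]
      refine v.map_add_le (le_trans ih2 ht2) ?_
      rw [map_mul]
      calc v (k : K) * v (zc P) ≤ 1 * t := mul_le_mul' (val_natCast_le_one k) hz
        _ = t := one_mul t
    obtain ⟨h1, h2⟩ := zc_add_estimate hW ih1 hP ht hk hz
    rw [succ_nsmul]
    refine ⟨h1, ?_⟩
    have e : zc (k • P + P) - ((k + 1 : ℕ) : K) * zc P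
        = (zc (k • P + P) - zc (k • P) - zc P) + (zc (k • P) - k * zc P) := by
      push_cast; ring
    rw [e]
    exact v.map_add_le h2 ih2

/-- No `n`-torsion in the kernel of reduction when `n` is a `v`-unit. -/
theorem InE1.eq_zero_of_nsmul (hW : IntegralModel v W) {P : W.Point} (hP : InE1 v W P)
    {n : ℕ} (hn : v (n : K) = 1) (h : n • P = 0) : P = 0 := by
  rcases P with _ | ⟨x, y, hxy⟩
  · rfl
  · exfalso
    have hx : 1 < v x := hP
    have ht : v (x / y) < 1 := val_z_lt_one hW hxy.1 hx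
    have hy := y_ne_zero_of_one_lt hW hxy.1 hx
    have hx0 : x ≠ 0 := by
      intro h0
      rw [h0, map_zero] at hx
      exact absurd hx (not_lt.mpr zero_le)
    have ht0 : v (x / y) ≠ 0 := (Valuation.ne_zero_iff v).mpr (div_ne_zero hx0 hy)
    have hz : v (zc (Point.some x y hxy)) ≤ v (x / y) := by
      show v (-x / y) ≤ v (x / y)
      rw [neg_div, Valuation.map_neg]
    obtain ⟨-, h2⟩ := zc_nsmul_estimate hW hP ht hz n
    rw [h] at h2
    have e : v (zc (0 : W.Point) - (n : K) * zc (Point.some x y hxy)) = v (x / y) := by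
      show v ((0 : K) - (n : K) * (-x / y)) = v (x / y)
      rw [zero_sub, Valuation.map_neg, map_mul, hn, one_mul, neg_div, Valuation.map_neg]
    rw [e] at h2
    have : v (x / y) ^ 2 < v (x / y) :=
      pow_lt_self_of_lt_one₀ (zero_lt_iff.mpr ht0) ht (by norm_num)
    exact absurd h2 (not_le.mpr this)

omit [DecidableEq K] in
/-- A large slope gives a sum in `E₁`. -/
theorem one_lt_val_addX (hW : IntegralModel v W) {x₁ x₂ ℓ : K} (hx₁ : v x₁ ≤ 1) (hx₂ : v x₂ ≤ 1)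
    (hℓ : 1 < v ℓ) : 1 < v (W.addX x₁ x₂ ℓ) := by
  have e : W.addX x₁ x₂ ℓ = ℓ ^ 2 + (W.a₁ * ℓ - W.a₂ - x₁ - x₂) := by
    rw [WeierstrassCurve.Affine.addX]; ring
  have hrest : v (W.a₁ * ℓ - W.a₂ - x₁ - x₂) ≤ v ℓ := by
    refine v.map_sub_le (v.map_sub_le (v.map_sub_le ?_ (le_trans hW.a₂ hℓ.le))
      (le_trans hx₁ hℓ.le)) (le_trans hx₂ hℓ.le)
    rw [map_mul]
    calc v W.a₁ * v ℓ ≤ 1 * v ℓ := mul_le_mul' hW.a₁ le_rfl
      _ = v ℓ := one_mul _
  have hlt : v ℓ < v ℓ ^ 2 := by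
    calc v ℓ = v ℓ ^ 1 := (pow_one _).symm
      _ < v ℓ ^ 2 := pow_lt_pow_right₀ hℓ (by norm_num)
  rw [e, Valuation.map_add_eq_of_lt_left v (by rw [map_pow]; exact lt_of_le_of_lt hrest hlt),
    map_pow]
  exact lt_trans hℓ hlt

set_option linter.unusedVariables false in
/-- The slope of the line through two distinct congruent points (the second one negated)
with nonsingular reduction has valuation `> 1`. -/
theorem one_lt_val_slope (hW : IntegralModel v W) {x₁ y₁ x₂ y₂ : K}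
    (h₁ : W.Equation x₁ y₁) (h₂ : W.Equation x₂ y₂)
    (hx₁ : v x₁ ≤ 1) (hy₁ : v y₁ ≤ 1) (hx₂ : v x₂ ≤ 1) (hy₂ : v y₂ ≤ 1)
    (hx : v (x₁ - x₂) < 1) (hy : v (y₁ - y₂) < 1)
    (hns : v (W.a₁ * y₁ - (3 * x₁ ^ 2 + 2 * W.a₂ * x₁ + W.a₄)) = 1 ∨
      v (2 * y₁ + W.a₁ * x₁ + W.a₃) = 1)
    (hxy : ¬(x₁ = x₂ ∧ y₁ = W.negY x₂ (W.negY x₂ y₂))) :
    1 < v (W.slope x₁ x₂ y₁ (W.negY x₂ y₂)) := by
  have ha₁x : v (W.a₁ * (x₁ - x₂)) < 1 := by
    rw [map_mul]
    calc v W.a₁ * v (x₁ - x₂) ≤ 1 * v (x₁ - x₂) := mul_le_mul' hW.a₁ le_rfl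
      _ = v (x₁ - x₂) := one_mul _
      _ < 1 := hx
  by_cases hxx : x₁ = x₂
  · -- tangent case
    subst hxx
    have hyne : y₁ ≠ y₂ := by
      intro h
      apply hxy
      refine ⟨rfl, ?_⟩
      rw [WeierstrassCurve.Affine.negY_negY]; exact h
    have hy' : y₁ ≠ W.negY x₁ (W.negY x₁ y₂) := by
      rw [WeierstrassCurve.Affine.negY_negY]; exact hyne
    rw [WeierstrassCurve.Affine.slope_of_Y_ne rfl hy']
    have hneg : y₁ = W.negY x₁ y₂ :=
      (WeierstrassCurve.Affine.Y_eq_of_X_eq h₁ h₂ rfl).resolve_left hyne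
    have hden : y₁ - W.negY x₁ y₁ = y₁ - y₂ := by
      rw [hneg, WeierstrassCurve.Affine.negY_negY]
    have hpolyY : 2 * y₁ + W.a₁ * x₁ + W.a₃ = y₁ - y₂ := by
      rw [← hden, WeierstrassCurve.Affine.negY]; ring
    have hX : v (W.a₁ * y₁ - (3 * x₁ ^ 2 + 2 * W.a₂ * x₁ + W.a₄)) = 1 := by
      rcases hns with h | h
      · exact h
      · rw [hpolyY] at h; rw [h] at hy; exact absurd hy (lt_irrefl _)
    have hnum : v (3 * x₁ ^ 2 + 2 * W.a₂ * x₁ + W.a₄ - W.a₁ * y₁) = 1 := by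
      rw [← hX, ← Valuation.map_neg]; congr 1; ring
    have hd0 : y₁ - y₂ ≠ 0 := sub_ne_zero.mpr hyne
    have hvd0 : v (y₁ - y₂) ≠ 0 := (Valuation.ne_zero_iff v).mpr hd0
    rw [hden, map_div₀, hnum, one_div]
    exact (one_lt_inv₀ (zero_lt_iff.mpr hvd0)).mpr hy
  · -- chord case
    rw [WeierstrassCurve.Affine.slope_of_X_ne hxx]
    have hd0 : x₁ - x₂ ≠ 0 := sub_ne_zero.mpr hxx
    have hvd0 : v (x₁ - x₂) ≠ 0 := (Valuation.ne_zero_iff v).mpr hd0
    -- `D = y₁ - negY x₂ y₂ = polyY - (y₁ - y₂) - a₁ (x₁ - x₂)`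
    have hD : y₁ - W.negY x₂ y₂ = (2 * y₁ + W.a₁ * x₁ + W.a₃) - ((y₁ - y₂) + W.a₁ * (x₁ - x₂)) := by
      rw [WeierstrassCurve.Affine.negY]; ring
    have hsmall : v ((y₁ - y₂) + W.a₁ * (x₁ - x₂)) < 1 :=
      lt_of_le_of_lt (v.map_add _ _) (max_lt hy ha₁x)
    by_cases hY : v (2 * y₁ + W.a₁ * x₁ + W.a₃) = 1
    · have hvD : v (y₁ - W.negY x₂ y₂) = 1 := by
        rw [hD, Valuation.map_sub_eq_of_lt_left v (by rw [hY]; exact hsmall), hY]
      rw [map_div₀, hvD, one_div]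
      exact (one_lt_inv₀ (zero_lt_iff.mpr hvd0)).mpr hx
    · have hX : v (W.a₁ * y₁ - (3 * x₁ ^ 2 + 2 * W.a₂ * x₁ + W.a₄)) = 1 :=
        hns.resolve_right hY
      have hYle : v (2 * y₁ + W.a₁ * x₁ + W.a₃) ≤ 1 := by
        refine v.map_add_le (v.map_add_le ?_ ?_) hW.a₃
        · rw [map_mul]
          calc v 2 * v y₁ ≤ 1 * 1 := mul_le_mul' (by
                have := val_natCast_le_one (v := v) 2; simpa using this) hy₁
            _ = 1 := one_mul _
        · rw [map_mul]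
          calc v W.a₁ * v x₁ ≤ 1 * 1 := mul_le_mul' hW.a₁ hx₁
            _ = 1 := one_mul _
      have hYlt : v (2 * y₁ + W.a₁ * x₁ + W.a₃) < 1 := lt_of_le_of_ne hYle hY
      have hvD : v (y₁ - W.negY x₂ y₂) < 1 := by
        rw [hD]; exact lt_of_le_of_lt (v.map_sub _ _) (max_lt hYlt hsmall)
      -- the identity `D * E = (x₁ - x₂) * G`
      have h₂' : W.Equation x₂ (W.negY x₂ y₂) := (WeierstrassCurve.Affine.equation_neg x₂ y₂).mpr h₂
      obtain ⟨E, hE⟩ : ∃ E, E = (y₁ - y₂) + W.a₁ * (x₁ - x₂) := ⟨_, rfl⟩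
      obtain ⟨G, hG⟩ : ∃ G, G = x₁ ^ 2 + x₁ * x₂ + x₂ ^ 2 + W.a₂ * (x₁ + x₂) + W.a₄
          - W.a₁ * W.negY x₂ y₂ := ⟨_, rfl⟩
      have hid : (y₁ - W.negY x₂ y₂) * E = (x₁ - x₂) * G := by
        rw [WeierstrassCurve.Affine.equation_iff] at h₁ h₂'
        rw [hE, hG]
        have hn : W.negY x₂ y₂ = -y₂ - W.a₁ * x₂ - W.a₃ := rfl
        linear_combination h₁ - h₂' - (y₁ - W.negY x₂ y₂) * hn
      have hvE : v E < 1 := by rw [hE]; exact hsmall
      have hGX : G + (W.a₁ * y₁ - (3 * x₁ ^ 2 + 2 * W.a₂ * x₁ + W.a₄))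
          = (x₂ - x₁) * (x₂ + 2 * x₁ + W.a₂) + W.a₁ * (y₁ - W.negY x₂ y₂) := by
        rw [hG]; ring
      have hvGX : v (G + (W.a₁ * y₁ - (3 * x₁ ^ 2 + 2 * W.a₂ * x₁ + W.a₄))) < 1 := by
        rw [hGX]
        refine lt_of_le_of_lt (v.map_add _ _) (max_lt ?_ ?_)
        · rw [map_mul, Valuation.map_sub_swap]
          have h3 : v (x₂ + 2 * x₁ + W.a₂) ≤ 1 := by
            refine v.map_add_le (v.map_add_le hx₂ ?_) hW.a₂
            rw [map_mul]
            calc v 2 * v x₁ ≤ 1 * 1 := mul_le_mul' (by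
                  have := val_natCast_le_one (v := v) 2; simpa using this) hx₁
              _ = 1 := one_mul _
          calc v (x₁ - x₂) * v (x₂ + 2 * x₁ + W.a₂) ≤ v (x₁ - x₂) * 1 := mul_le_mul' le_rfl h3
            _ = v (x₁ - x₂) := mul_one _
            _ < 1 := hx
        · rw [map_mul]
          calc v W.a₁ * v (y₁ - W.negY x₂ y₂) ≤ 1 * v (y₁ - W.negY x₂ y₂) :=
                mul_le_mul' hW.a₁ le_rfl
            _ = v (y₁ - W.negY x₂ y₂) := one_mul _
            _ < 1 := hvD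
      have hvG : v G = 1 := by
        have e : G = (G + (W.a₁ * y₁ - (3 * x₁ ^ 2 + 2 * W.a₂ * x₁ + W.a₄)))
            - (W.a₁ * y₁ - (3 * x₁ ^ 2 + 2 * W.a₂ * x₁ + W.a₄)) := by ring
        rw [e, Valuation.map_sub_eq_of_lt_right v (by rw [hX]; exact hvGX), hX]
      have hG0 : G ≠ 0 := by
        intro h0; rw [h0, map_zero] at hvG; exact zero_ne_one hvG
      have hE0 : E ≠ 0 := by
        intro h0
        rw [h0, mul_zero] at hid
        exact (mul_ne_zero hd0 hG0) hid.symm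
      have hvE0 : v E ≠ 0 := (Valuation.ne_zero_iff v).mpr hE0
      have hslope : (y₁ - W.negY x₂ y₂) / (x₁ - x₂) = G / E := by
        rw [div_eq_div_iff hd0 hE0]; linear_combination hid
      rw [hslope, map_div₀, hvG, one_div]
      exact (one_lt_inv₀ (zero_lt_iff.mpr hvE0)).mpr hvE

/-- Congruence lemma: two integral points which are congruent modulo the maximal ideal and whose
common reduction is a nonsingular point of the reduced cubic differ by an element of `E₁`. -/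
theorem inE1_sub_of_congr (hW : IntegralModel v W) {x₁ y₁ x₂ y₂ : K}
    (h₁ : W.Nonsingular x₁ y₁) (h₂ : W.Nonsingular x₂ y₂)
    (hx₁ : v x₁ ≤ 1) (hy₁ : v y₁ ≤ 1) (hx₂ : v x₂ ≤ 1) (hy₂ : v y₂ ≤ 1)
    (hx : v (x₁ - x₂) < 1) (hy : v (y₁ - y₂) < 1)
    (hns : v (W.a₁ * y₁ - (3 * x₁ ^ 2 + 2 * W.a₂ * x₁ + W.a₄)) = 1 ∨
      v (2 * y₁ + W.a₁ * x₁ + W.a₃) = 1) :
    InE1 v W (Point.some x₁ y₁ h₁ - Point.some x₂ y₂ h₂) := by
  rw [sub_eq_add_neg, Point.neg_some]
  by_cases hxy : x₁ = x₂ ∧ y₁ = W.negY x₂ (W.negY x₂ y₂)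
  · rw [Point.add_of_Y_eq hxy.1 hxy.2]; trivial
  · rw [Point.add_some hxy]
    show 1 < v (W.addX x₁ x₂ (W.slope x₁ x₂ y₁ (W.negY x₂ y₂)))
    exact one_lt_val_addX hW hx₁ hx₂
      (one_lt_val_slope hW h₁.1 h₂.1 hx₁ hy₁ hx₂ hy₂ hx hy hns hxy)

/-- Two congruent integral points with nonsingular reduction and the same `n`-th multiple
(`n` a `v`-unit) are equal.  In particular reduction is injective on `n`-torsion points with
nonsingular reduction. -/
theorem eq_of_congr_of_nsmul_eq (hW : IntegralModel v W) {x₁ y₁ x₂ y₂ : K}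
    (h₁ : W.Nonsingular x₁ y₁) (h₂ : W.Nonsingular x₂ y₂)
    (hx₁ : v x₁ ≤ 1) (hy₁ : v y₁ ≤ 1) (hx₂ : v x₂ ≤ 1) (hy₂ : v y₂ ≤ 1)
    (hx : v (x₁ - x₂) < 1) (hy : v (y₁ - y₂) < 1)
    (hns : v (W.a₁ * y₁ - (3 * x₁ ^ 2 + 2 * W.a₂ * x₁ + W.a₄)) = 1 ∨
      v (2 * y₁ + W.a₁ * x₁ + W.a₃) = 1)
    {n : ℕ} (hn : v (n : K) = 1)
    (h : n • Point.some x₁ y₁ h₁ = n • Point.some x₂ y₂ h₂) :
    Point.some x₁ y₁ h₁ = Point.some x₂ y₂ h₂ := by
  have hD := inE1_sub_of_congr hW h₁ h₂ hx₁ hy₁ hx₂ hy₂ hx hy hns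
  have h0 : n • (Point.some x₁ y₁ h₁ - Point.some x₂ y₂ h₂) = 0 := by
    rw [smul_sub, h, sub_self]
  exact sub_eq_zero.mp (hD.eq_zero_of_nsmul hW hn h0)

end Fermat.Agent.S05lib
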